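/-
T1B / brick INJ-LAURENT (helper69): INTEGRAL FORM (I2) of the injectivity of base-changed expansions.

(I1) (`K ⊂ L` fields, `e : B →+* K((q))` injective, identity on constants ⇒ `L ⊗[K] B ↪ L((q))`,
`IsDomain (L ⊗[K] B)`) is helper3's `Fermat.Agent.T1B.Hecke3.Omega.tensorExp_injective` /
`isDomain_tensor_of_exp` (file `T1B/Hecke3/Omega/TensorInj.lean`); it is also literally (I3)
(`k ⊂ k'`, `C ↪ k((q))` ⇒ `k' ⊗[k] C ↪ k'((q))`).

Here: `W` a domain with fraction field `K`, `B` a FLAT `W`-algebra with an injective expansion
`e : B →+* K((q))` which is `w ↦ C w` on `W`;  `L ⊇ K` a field, `O` a `W`-algebra with an injective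
`W`-algebra map into `L` (e.g. a domain with `Frac O = L`).  Then

  `genExp e he : K ⊗[W] B →+* K((q))`,  `c ⊗ b ↦ C c * e b`                       is injective,
  `intExp e he : O ⊗[W] B →+* L((q))`,  `o ⊗ b ↦ C (o : L) * coeffMap (K → L) (e b)` is injective,

hence `K ⊗[W] B`, `L ⊗[W] B`-free statements `IsDomain (K ⊗[W] B)`, `IsDomain (O ⊗[W] B)`.
-/
import Mathlib
import Fermat.Prelude.Def_ModularCurve_LaurentCoeff
import Fermat.Agent.T1B.Hecke3.Omega.TensorInj

set_option autoImplicit false
set_option linter.unusedSectionVars false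

noncomputable section

namespace Fermat.Agent.T1B.InjLaurent69

open HahnSeries ModularCurve TensorProduct
open Fermat.Agent.T1B.Hecke3.Omega

variable {W K B : Type*} [CommRing W] [Field K] [CommRing B] [Algebra W K] [IsFractionRing W K]
  [Algebra W B] (e : B →+* LaurentSeries K)
  (he : ∀ w : W, e (algebraMap W B w) = HahnSeries.C (algebraMap W K w))

/-! ### The generic fibre `K ⊗[W] B` -/

/-- The `W`-algebra structure `w ↦ C (w : L)` on `L((q))` (local). -/
@[reducible] def algWL (W L : Type*) [CommRing W] [Field L] [Algebra W L] :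
    Algebra W (LaurentSeries L) :=
  ((HahnSeries.C : L →+* LaurentSeries L).comp (algebraMap W L)).toAlgebra

/-- **The generic-fibre expansion** `K ⊗[W] B →+* K((q))`, `c ⊗ b ↦ C c * e b`. -/
def genExp : K ⊗[W] B →+* LaurentSeries K :=
  letI : Algebra W (LaurentSeries K) := algWL W K
  let cW : K →ₐ[W] LaurentSeries K :=
    { (HahnSeries.C : K →+* LaurentSeries K) with commutes' := fun _ => rfl }
  let eW : B →ₐ[W] LaurentSeries K :=
    { e with commutes' := fun w => he w }
  (Algebra.TensorProduct.productMap cW eW).toRingHom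

@[simp] theorem genExp_tmul (c : K) (b : B) :
    genExp e he (c ⊗ₜ[W] b) = HahnSeries.C c * e b := by
  let _ : Algebra W (LaurentSeries K) := algWL W K
  unfold genExp
  exact Algebra.TensorProduct.productMap_apply_tmul _ _ c b

theorem genExp_algebraMap (c : K) :
    genExp e he (algebraMap K (K ⊗[W] B) c) = HahnSeries.C c := by
  rw [Algebra.TensorProduct.algebraMap_apply, genExp_tmul, map_one, mul_one]
  rfl

/-- Every element of `K ⊗[W] B` is `s⁻¹ ⊗ b` with `0 ≠ s ∈ W`. -/
theorem exists_eq_inv_tmul (t : K ⊗[W] B) :
    ∃ (s : W) (b : B), algebraMap W K s ≠ 0 ∧ t = (algebraMap W K s)⁻¹ ⊗ₜ[W] b := by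
  have : Nontrivial W := (algebraMap W K).domain_nontrivial
  induction t using TensorProduct.induction_on with
  | zero => exact ⟨1, 0, by simp, by simp⟩
  | tmul c b =>
    obtain ⟨a, s, hs, rfl⟩ := IsFractionRing.div_surjective (A := W) c
    have hs0 : algebraMap W K s ≠ 0 :=
      IsFractionRing.to_map_ne_zero_of_mem_nonZeroDivisors hs
    refine ⟨s, a • b, hs0, ?_⟩
    rw [TensorProduct.tmul_smul, TensorProduct.smul_tmul', Algebra.smul_def, div_eq_mul_inv]
  | add x y hx hy =>
    obtain ⟨s, b, hs, rfl⟩ := hx
    obtain ⟨s', b', hs', rfl⟩ := hy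
    refine ⟨s * s', s' • b + s • b', by rw [map_mul]; exact mul_ne_zero hs hs', ?_⟩
    rw [TensorProduct.tmul_add, TensorProduct.tmul_smul, TensorProduct.tmul_smul,
      TensorProduct.smul_tmul', TensorProduct.smul_tmul', Algebra.smul_def, Algebra.smul_def,
      map_mul, mul_inv]
    congr 2
    · field_simp
    · field_simp

/-- **`genExp` is injective** when `e` is. -/
theorem genExp_injective (hinj : Function.Injective e) :
    Function.Injective (genExp e he) := by
  rw [injective_iff_map_eq_zero]
  intro t ht
  obtain ⟨s, b, hs, rfl⟩ := exists_eq_inv_tmul t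
  rw [genExp_tmul] at ht
  have hC : (HahnSeries.C (algebraMap W K s)⁻¹ : LaurentSeries K) ≠ 0 := by
    rw [Ne, ← map_zero (HahnSeries.C : K →+* LaurentSeries K)]
    exact fun h => inv_ne_zero hs (HahnSeries.C_injective h)
  have hb : e b = 0 := (mul_eq_zero.mp ht).resolve_left hC
  have : b = 0 := hinj (by rw [hb, map_zero])
  rw [this, TensorProduct.tmul_zero]

include e he in
/-- `K ⊗[W] B` is a domain as soon as `B` has ONE injective expansion. -/
theorem isDomain_gen_tensor (hinj : Function.Injective e) : IsDomain (K ⊗[W] B) :=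
  (genExp_injective e he hinj).isDomain (genExp e he)

/-! ### The integral form `O ⊗[W] B ↪ L((q))` -/

variable {L O : Type*} [Field L] [CommRing O] [Algebra K L] [Algebra W L] [IsScalarTower W K L]
  [Algebra W O] [Algebra O L] [IsScalarTower W O L]

/-- **The integral base-changed expansion** `O ⊗[W] B →+* L((q))`,
`o ⊗ b ↦ C (o : L) * coeffMap (K → L) (e b)`. -/
def intExp : O ⊗[W] B →+* LaurentSeries L :=
  letI : Algebra W (LaurentSeries L) := algWL W L
  let cW : O →ₐ[W] LaurentSeries L :=
    { (HahnSeries.C : L →+* LaurentSeries L).comp (algebraMap O L) with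
      commutes' := fun w => by
        show HahnSeries.C (algebraMap O L (algebraMap W O w)) = HahnSeries.C (algebraMap W L w)
        rw [← IsScalarTower.algebraMap_apply] }
  let eW : B →ₐ[W] LaurentSeries L :=
    { (coeffMap (algebraMap K L)).comp e with
      commutes' := fun w => by
        show coeffMap (algebraMap K L) (e (algebraMap W B w)) = HahnSeries.C (algebraMap W L w)
        rw [he, IsScalarTower.algebraMap_apply W K L]
        exact coeffMap_single (algebraMap K L) 0 _ }
  (Algebra.TensorProduct.productMap cW eW).toRingHom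

@[simp] theorem intExp_tmul (o : O) (b : B) :
    intExp (L := L) e he (o ⊗ₜ[W] b) =
      HahnSeries.C (algebraMap O L o) * coeffMap (algebraMap K L) (e b) := by
  let _ : Algebra W (LaurentSeries L) := algWL W L
  unfold intExp
  exact Algebra.TensorProduct.productMap_apply_tmul _ _ o b

/-- `intExp` factors as `O ⊗[W] B → L ⊗[W] B ≃ L ⊗[K] (K ⊗[W] B) → L((q))`. -/
theorem intExp_eq_comp (t : O ⊗[W] B) :
    intExp (L := L) e he t =
      tensorExp (L := L) (genExp e he) (genExp_algebraMap e he)
        ((TensorProduct.AlgebraTensorModule.cancelBaseChange W K K L B).symm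
          (LinearMap.rTensor B (IsScalarTower.toAlgHom W O L).toLinearMap t)) := by
  induction t using TensorProduct.induction_on with
  | zero => simp
  | tmul o b =>
    rw [intExp_tmul, LinearMap.rTensor_tmul, AlgHom.toLinearMap_apply,
      IsScalarTower.coe_toAlgHom',
      TensorProduct.AlgebraTensorModule.cancelBaseChange_symm_tmul, tensorExp_tmul, genExp_tmul,
      map_one, one_mul]
  | add x y hx hy => rw [map_add, map_add, map_add, map_add, hx, hy]

/-- **`intExp` is injective** when `e` is, `B` is flat over `W` and `O → L` is injective. -/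
theorem intExp_injective [Module.Flat W B] (hO : Function.Injective (algebraMap O L))
    (hinj : Function.Injective e) :
    Function.Injective (intExp (L := L) (O := O) e he) := by
  have h1 : Function.Injective
      (LinearMap.rTensor B (IsScalarTower.toAlgHom W O L).toLinearMap) :=
    Module.Flat.rTensor_preserves_injective_linearMap _ (by simpa using hO)
  have h3 := tensorExp_injective (L := L) (genExp e he) (genExp_algebraMap e he)
    (genExp_injective e he hinj)
  intro x y hxy
  rw [intExp_eq_comp, intExp_eq_comp] at hxy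
  exact h1 ((TensorProduct.AlgebraTensorModule.cancelBaseChange W K K L B).symm.injective (h3 hxy))

include e he in
/-- **`O ⊗[W] B` is a domain** (`B` flat over `W` with ONE injective expansion over `K = Frac W`,
`O` a `W`-algebra embedded in a field `L ⊇ K`). -/
theorem isDomain_int_tensor [Module.Flat W B] (hO : Function.Injective (algebraMap O L))
    (hinj : Function.Injective e) : IsDomain (O ⊗[W] B) :=
  (intExp_injective (L := L) (O := O) e he hO hinj).isDomain (intExp (L := L) (O := O) e he)

end Fermat.Agent.T1B.InjLaurent69
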