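/-
T1B / brick INJ-LAURENT (helper69), adapter for cell AD (AD-3 / `Frames.Setting.hinj`):
THE INTEGRAL CHART RING `O ⊗[W] B` INSIDE helper3's AMBIENT FIELD `FΩ K Ω F = Frac (Ω ⊗[K] F)`.

`W` a domain, `K = Frac W`, `Ω ⊇ K` a field, `F / K` a field with an expansion `e : F →+* K((q))`;
`O` a `W`-algebra mapping to `Ω`, `B` a `W`-algebra with a ring hom `ι : B →+* F` over `W`.

  `kappa ι hι : O ⊗[W] B →+* FΩ K Ω F`,  `o ⊗ b ↦ constΩ (o : Ω) * βΩ (ι b)`,
  `eΩ_kappa`   : `eΩ e he (kappa ι hι x) = intExp (e.comp ι) _ x`,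
  `kappa_injective` : injective when `B` is flat over `W`, `O → Ω` and `ι` injective.
-/
import Mathlib
import Fermat.Prelude.Def_ModularCurve_LaurentCoeff
import Fermat.Agent.T1B.Hecke3.Omega.Base
import Fermat.Agent.T1B.InjLaurent69.Basic

set_option autoImplicit false
set_option linter.unusedSectionVars false

noncomputable section

namespace Fermat.Agent.T1B.InjLaurent69

open HahnSeries ModularCurve TensorProduct
open Fermat.Agent.T1B.Hecke3.Omega

variable {W K Ω F O B : Type*} [CommRing W] [Field K] [Field Ω] [Field F] [CommRing O] [CommRing B]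
  [Algebra W K] [IsFractionRing W K] [Algebra K Ω] [Algebra K F] [Algebra W Ω]
  [IsScalarTower W K Ω] [Algebra W O] [Algebra O Ω] [IsScalarTower W O Ω] [Algebra W B]
  [IsDomain (Ω ⊗[K] F)]
  (ι : B →+* F) (hι : ∀ w : W, ι (algebraMap W B w) = algebraMap K F (algebraMap W K w))

/-- **The structure map of the integral chart ring into the ambient field**:
`O ⊗[W] B →+* FΩ K Ω F`, `o ⊗ b ↦ constΩ (o : Ω) * βΩ (ι b)`. -/
def kappa : O ⊗[W] B →+* FΩ K Ω F :=
  letI : Algebra W (FΩ K Ω F) := ((constΩ K Ω F).comp (algebraMap W Ω)).toAlgebra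
  let cW : O →ₐ[W] FΩ K Ω F :=
    { (constΩ K Ω F).comp (algebraMap O Ω) with
      commutes' := fun w => by
        show constΩ K Ω F (algebraMap O Ω (algebraMap W O w)) = constΩ K Ω F (algebraMap W Ω w)
        rw [← IsScalarTower.algebraMap_apply] }
  let bW : B →ₐ[W] FΩ K Ω F :=
    { (βΩ K Ω F).comp ι with
      commutes' := fun w => by
        show βΩ K Ω F (ι (algebraMap W B w)) = constΩ K Ω F (algebraMap W Ω w)
        rw [hι, βΩ_algebraMap, ← IsScalarTower.algebraMap_apply] }
  (Algebra.TensorProduct.productMap cW bW).toRingHom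

@[simp] theorem kappa_tmul (o : O) (b : B) :
    kappa (Ω := Ω) ι hι (o ⊗ₜ[W] b) = constΩ K Ω F (algebraMap O Ω o) * βΩ K Ω F (ι b) := by
  let _ : Algebra W (FΩ K Ω F) := ((constΩ K Ω F).comp (algebraMap W Ω)).toAlgebra
  unfold kappa
  exact Algebra.TensorProduct.productMap_apply_tmul _ _ o b

variable (e : F →+* LaurentSeries K) (he : ∀ c : K, e (algebraMap K F c) = HahnSeries.C c)

include hι he in
/-- the expansion `e ∘ ι` of `B` is `w ↦ C w` on `W`. -/
theorem comp_const (w : W) :
    (e.comp ι) (algebraMap W B w) = HahnSeries.C (algebraMap W K w) := by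
  rw [RingHom.comp_apply, hι, he]

/-- **`eΩ ∘ kappa = intExp (e ∘ ι)`**. -/
theorem eΩ_kappa (x : O ⊗[W] B) :
    eΩ (Ω := Ω) e he (kappa (Ω := Ω) (O := O) ι hι x) =
      intExp (L := Ω) (O := O) (e.comp ι) (comp_const ι hι e he) x := by
  induction x using TensorProduct.induction_on with
  | zero => simp
  | tmul o b =>
    rw [kappa_tmul, map_mul, eΩ_const, eΩ_beta, intExp_tmul, RingHom.comp_apply]
  | add x y hx hy => rw [map_add, map_add, map_add, hx, hy]

include e he in
/-- **`kappa` is injective** (`B` flat over `W`, `O → Ω` injective, `ι` injective). -/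
theorem kappa_injective [Module.Flat W B] (hO : Function.Injective (algebraMap O Ω))
    (hιinj : Function.Injective ι) :
    Function.Injective (kappa (Ω := Ω) (O := O) ι hι) := by
  intro x y hxy
  have h := congrArg (eΩ (Ω := Ω) e he) hxy
  rw [eΩ_kappa, eΩ_kappa] at h
  exact intExp_injective (L := Ω) (O := O) (e.comp ι) (comp_const ι hι e he) hO
    (e.injective.comp hιinj) h

end Fermat.Agent.T1B.InjLaurent69
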